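/-
S55 / layer G / block CM (sub-architect helper893) — FROZEN INTERFACE.

**G-CM = `G.PClassModuleSpec`** (the UNIVERSAL class-module property for `p`-groups, consumed by
G-EXIST through `Exist121.recip_of : PClassModuleSpec → RecipSpec`), derived from

  * `TOW.Gd1Spec p`        (fundamental class at `p` on every Tower level, block REC2-TOW),
  * `G.PClassUpperSpec`    (upper bound, ON MAIN: `G.AllH604.pClassUpper`),
  * `G.DescentSpec`        (ON MAIN: `G.AllH604.descent`),
  * `G.SIndepSpec`         (independence of `S`).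

Route.  Let the `p`-group `G` act faithfully on the number field `L` (any number field, NOT
necessarily Galois over `ℚ`).  Embed `L` in `ℚ̄`, let `M` be the Galois closure, a Tower level of
`S' = S ∪ {ramified primes of M}`; `Γ' = Gal(M / L^G) ≤ Gal(M/ℚ)`, `π : Γ' ↠ G` (restriction),
`ker π = Gal(M/L)`.  `Gd1` gives a class module at `p` on `(Gal(M/ℚ), C_{S'}(M))`, hence on
`(Γ', C_{S'}(M))` (SUBCM).  Descent: `C_{S'}(L) = C_{S'}(M)^{ker π}` (DESCI).  The `p`-local
inflation–restriction sequence (main `T/InfResTorsH244`) then produces a class of order `|G|` in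
`H²(G, C_{S'}(L))` (ORD), and independence of `S` moves it to `H²(G, C_S(L))` (SINDT).
With the upper bound, `H²(H, C_S(L)) ≅ ℤ/|H|` for every subgroup `H ≤ G`.

Everything here is a `def XxxSpec : Prop`; NO sorry.  Producers prove `theorem xxx : XxxSpec`
(or `xxx_of : Hyp → XxxSpec`) in `Fermat/Agent/S55/G/CM/H<seat>/*.lean`, namespace
`Fermat.Agent.S55.G.CM.H<seat>`.  Assembly: `G/CM/Assembly.lean` (helper893).
-/
import Fermat.Agent.S55.G.Rec.Tow.Spec

set_option autoImplicit false

open CategoryTheory groupCohomology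
open scoped NumberField

noncomputable section

namespace Fermat.Agent.S55.G.CM

open Fermat.Agent.S55 Fermat.Agent.S55.Tow Fermat.Agent.S55.E1.H594 Fermat.Agent.S55.G
open Fermat.Agent.S55.G.Rec

/-- **G-CM:TOP** (the core): for a `p`-group `G` acting faithfully on `L`, unramified outside
`S ∋ p`, `μ_p ⊂ L^G`, `H²(G, C_S(L))` contains a class of order (at least) `|G|`. -/
def TopOrderSpec : Prop :=
  ∀ (p : ℕ) [hp : Fact p.Prime], p ≠ 2 →
  ∀ (S : Finset Nat.Primes) (G L : Type) [Group G] [Finite G] [Field L] [NumberField L]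
    [MulSemiringAction G L] [FaithfulSMul G L],
    (⟨p, hp.out⟩ : Nat.Primes) ∈ S → IsPGroup p G → IsUnramOut S G L →
    HasFixedRootOfUnity p G L →
    ∃ y : groupCohomology (CRep S G L) 2, ∀ n : ℕ, n • y = 0 → Nat.card G ∣ n

/-- **G-CM:GCL** (Galois-closure level).  For a finite group `G` acting faithfully on a number
field `L` there are a finite set `S' ⊇ S`, a Tower level `M` of `S'`, a subgroup
`Γ' ≤ Gal(M/ℚ)`, a surjection `π : Γ' ↠ G` and an embedding `φ : L → M`, equivariant along `π`,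
whose image is the fixed field of `ker π`.
(`M` = normal closure of an embedding of `L` in `ℚ̄`; `S'` = `S` + the primes ramified in `M`;
`Γ'` = image of `Gal(ℚ̄ / L^G)`; `π` = restriction to `L`, through `G ≃ Aut(L / L^G)`.) -/
def ClosureLevelSpec : Prop :=
  ∀ (S : Finset Nat.Primes) (G L : Type) [Group G] [Finite G] [Field L] [NumberField L]
    [MulSemiringAction G L] [FaithfulSMul G L],
    ∃ (S' : Finset Nat.Primes) (_ : S ⊆ S') (M : Level S') (Γ' : Subgroup M.Gal)
      (π : ↥Γ' →* G) (φ : L →+* M.F),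
      Function.Surjective π ∧
      (∀ (g : ↥Γ') (x : L), φ (π g • x) = g • φ x) ∧
      (∀ y : M.F, (∀ n : ↥Γ', π n = 1 → n • y = y) → y ∈ Set.range φ)

/-- **G-CM:SUBCM** (pure algebra): a class module at `p` restricts to a class module at `p` on
every subgroup. -/
def SubClassModuleSpec : Prop :=
  ∀ (p : ℕ) (Γ : Type) [Group Γ] [Finite Γ] (C : Rep.{0} ℤ Γ) (γ : groupCohomology C 2),
    E1.IsClassModuleAt p C γ → ∀ Γ' : Subgroup Γ,
      E1.IsClassModuleAt p (T.resSub C Γ') (TOW.res2 C Γ' γ)

/-- **G-CM:ORD** (pure algebra, `p`-local inflation–restriction): let `π : Γ' ↠ Γ` with `Γ` a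
`p`-group, `C = C'^{ker π}` (`TOW.IsInvIncl π ι`) and `(C', γ)` a class module at `p`.  Then
`H²(Γ, C)` contains a class of order (at least) `|Γ|`.
(`t = [Γ' : P']`, `P'` Sylow; `Y = |ker π|_p • t • γ` is `p`-primary of order `|Γ|` and dies on
`ker π`; `H¹(ker π, C')` is killed by `[ker π : Sylow]`, prime to `p`; main
`T.H244.exists_infMap_eq_of_resMap_eq_zero_of_coprime` ⇒ `Y = inf y`.) -/
def QuotOrderSpec : Prop :=
  ∀ (p : ℕ), p.Prime → ∀ (Γ' Γ : Type) [Group Γ'] [Group Γ] [Finite Γ'] (π : Γ' →* Γ),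
    Function.Surjective π → IsPGroup p Γ →
    ∀ (C : Rep.{0} ℤ Γ) (C' : Rep.{0} ℤ Γ') (ι : Rep.res π C ⟶ C'), TOW.IsInvIncl π ι →
    ∀ γ : groupCohomology C' 2, E1.IsClassModuleAt p C' γ →
      ∃ y : groupCohomology C 2, ∀ n : ℕ, n • y = 0 → Nat.card Γ ∣ n

/-- **G-CM:DESCI** (descent as an inclusion of invariants; from `G.DescentSpec`): for
`π : Γ' ↠ G`, `Γ'` acting faithfully on `M`, unramified outside `S ≠ ∅`, and an embedding
`φ : L → M`, equivariant along `π`, with image the fixed field of `ker π`: there is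
`ι : Res_π C_S(L) ⟶ C_S(M)` identifying `C_S(L)` with the `ker π`-invariants of `C_S(M)`. -/
def DescInclSpec : Prop :=
  ∀ (S : Finset Nat.Primes) (Γ' G M L : Type) [Group Γ'] [Finite Γ'] [Group G]
    [Field M] [NumberField M] [Field L] [NumberField L]
    [MulSemiringAction Γ' M] [FaithfulSMul Γ' M] [MulSemiringAction G L]
    (π : Γ' →* G) (φ : L →+* M),
    Function.Surjective π → S.Nonempty → IsUnramOut S Γ' M →
    (∀ (g : Γ') (x : L), φ (π g • x) = g • φ x) →
    (∀ y : M, (∀ n : Γ', π n = 1 → n • y = y) → y ∈ Set.range φ) →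
    ∃ ι : Rep.res π (CRep S G L) ⟶ CRep S Γ' M, TOW.IsInvIncl π ι

/-- **G-CM:SINDT** (independence of `S` on `H²(G, -)`; from `G.SIndepSpec` at `H = ⊤`): every
class of `H²(G, C_{S'}(L))` has an image in `H²(G, C_S(L))` of the same order. -/
def SIndTopSpec : Prop :=
  ∀ (S S' : Finset Nat.Primes), S ⊆ S' → ∀ (G L : Type) [Group G] [Finite G] [Field L]
    [NumberField L] [MulSemiringAction G L] [FaithfulSMul G L],
    S.Nonempty → IsUnramOut S G L →
    ∀ y' : groupCohomology (CRep S' G L) 2,
      ∃ y : groupCohomology (CRep S G L) 2, ∀ n : ℕ, n • y = 0 → n • y' = 0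

/-- The five leaf statements, with the shapes of their producers. -/
def DescInclAssemblySpec : Prop := G.DescentSpec → DescInclSpec

/-- `sindTop_of`. -/
def SIndTopAssemblySpec : Prop := G.SIndepSpec → SIndTopSpec

end Fermat.Agent.S55.G.CM
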