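/-
S55 / layer G / block CM (sub-architect helper893) — ASSEMBLY.

* `topOrder_of`     : the leaves of `G/CM/Spec.lean` + `TOW.Gd1Spec` ⇒ `TopOrderSpec`;
* `pClassModule_of` : `G.PClassUpperSpec` + `TopOrderSpec` ⇒ `G.PClassModuleSpec`.
NO sorry.
-/
import Fermat.Agent.S55.G.CM.Spec

set_option autoImplicit false
set_option linter.unusedSectionVars false
set_option linter.style.haveILetI false

open CategoryTheory groupCohomology
open scoped NumberField

noncomputable section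

namespace Fermat.Agent.S55.G.CM

open Fermat.Agent.S55 Fermat.Agent.S55.Tow Fermat.Agent.S55.E1.H594 Fermat.Agent.S55.G
open Fermat.Agent.S55.G.Rec

/-- A finite abelian group of order dividing `m` with an element of order at least `m` is cyclic
of order `m`. -/
theorem nonempty_addEquiv_zmod_of_order {A : Type} [AddCommGroup A] [Finite A] {m : ℕ}
    (hm : Nat.card A ∣ m) (y : A) (hy : ∀ n : ℕ, n • y = 0 → m ∣ n) :
    Nonempty (A ≃+ ZMod m) := by
  have h1 : m ∣ addOrderOf y := hy _ (addOrderOf_nsmul_eq_zero y)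
  have h2 : addOrderOf y ∣ Nat.card A := addOrderOf_dvd_natCard y
  have h3 : addOrderOf y = Nat.card A :=
    Nat.dvd_antisymm h2 (hm.trans h1)
  have h4 : Nat.card A = m := Nat.dvd_antisymm hm (h1.trans h2)
  have hc : IsAddCyclic A := isAddCyclic_of_addOrderOf_eq_card y h3
  exact ⟨(h4 ▸ (zmodAddCyclicAddEquiv hc)).symm⟩

/-- **G-CM:TOP** from the leaves. -/
theorem topOrder_of (hGd1 : ∀ p : ℕ, TOW.Gd1Spec p) (hGCL : ClosureLevelSpec)
    (hSub : SubClassModuleSpec) (hOrd : QuotOrderSpec) (hDesc : DescInclSpec)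
    (hSInd : SIndTopSpec) : TopOrderSpec := by
  intro p hp hp2 S G L _ _ _ _ _ _ hpS hG hunr hζ
  obtain ⟨S', hSS', M, Γ', π, φ, hπ, hequiv, hfix⟩ := hGCL S G L
  have hpS' : (⟨p, hp.out⟩ : Nat.Primes) ∈ S' := hSS' hpS
  -- `μ_p ⊂ M`
  have hMu : M.HasMu p := by
    obtain ⟨ζ, hζ, -⟩ := hζ
    refine ⟨((φ ζ : M.F) : Qbar), (φ ζ).2, ?_⟩
    have h1 : IsPrimitiveRoot (φ ζ) p := hζ.map_of_injective φ.injective
    exact h1.map_of_injective (f := M.F.val) Subtype.val_injective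
  -- the class module at `p` on `Gal(M/ℚ)` and on `Γ'`
  obtain ⟨γ, hγ⟩ := hGd1 p S' hp.out hp2 hpS' M hMu
  have hγ' := hSub p M.Gal (TOW.lvlC M) γ hγ Γ'
  -- descent
  haveI : FaithfulSMul ↥Γ' M.F := level_faithfulSMul_subgroup M Γ'
  obtain ⟨ι, hι⟩ := hDesc S' ↥Γ' G M.F L π φ hπ ⟨_, hpS'⟩ (level_isUnramOut_subgroup M Γ')
    hequiv hfix
  -- the class of order `|G|` in `H²(G, C_{S'}(L))`
  obtain ⟨y', hy'⟩ := hOrd p hp.out ↥Γ' G π hπ hG (CRep S' G L) (CRep S' ↥Γ' M.F) ι hι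
    (TOW.res2 (TOW.lvlC M) Γ' γ) hγ'
  -- independence of `S`
  obtain ⟨y, hy⟩ := hSInd S S' hSS' G L ⟨_, hpS⟩ hunr y'
  exact ⟨y, fun n hn => hy' n (hy n hn)⟩

/-- **G-CM** (`G.PClassModuleSpec`) from the upper bound and `TopOrderSpec`. -/
theorem pClassModule_of (hUp : PClassUpperSpec) (hTop : TopOrderSpec) : PClassModuleSpec := by
  intro p hp hp2 S G L _ _ _ _ _ _ hpS hG hunr hζ H
  obtain ⟨h1, hfin, hdvd⟩ := hUp p hp2 S G L hpS hG hunr hζ H
  refine ⟨h1, ?_⟩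
  have hunrH : IsUnramOut S H L := fun w hw g hg x => hunr w hw (g : G) hg x
  have hζH : HasFixedRootOfUnity p H L := by
    obtain ⟨ζ, h1, h2⟩ := hζ
    exact ⟨ζ, h1, fun g => h2 (g : G)⟩
  obtain ⟨y, hy⟩ := hTop p hp2 S H L hpS (hG.to_subgroup H) hunrH hζH
  haveI := hfin
  exact nonempty_addEquiv_zmod_of_order (A := groupCohomology (T.resSub (CRep S G L) H) 2)
    hdvd y hy

/-- **G-CM**, full assembly. -/
theorem pClassModule_of_leaves (hUp : PClassUpperSpec) (hGd1 : ∀ p : ℕ, TOW.Gd1Spec p)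
    (hGCL : ClosureLevelSpec) (hSub : SubClassModuleSpec) (hOrd : QuotOrderSpec)
    (hDesc : DescInclSpec) (hSInd : SIndTopSpec) : PClassModuleSpec :=
  pClassModule_of hUp (topOrder_of hGd1 hGCL hSub hOrd hDesc hSInd)

end Fermat.Agent.S55.G.CM
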