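/-
S55 / layer G / block CM (sub-architect helper893) — CLOSED FORM.

    pClassModule_of_gd1 : (∀ p, TOW.Gd1Spec p) → G.PClassModuleSpec
    topOrder_of_gd1     : (∀ p, TOW.Gd1Spec p) → TopOrderSpec

All leaves of `G/CM/Spec.lean` are plugged in:
GCL `H893.closureLevel`, SUBCM `H514.subClassModuleSpec`, ORD `H954.quotOrder`,
DESCI `H587.descIncl_of`, SINDT `H139.sindTop_of`; inputs from layer G: `AllH604.pClassUpper`,
`AllH604.descent`, `SIndH601.sIndep`.  The ONLY remaining input of the universal class-module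
property is the fundamental class on Tower levels (`TOW.Gd1Spec`, block REC2-TOW).
Consumer: `Exist121.existCore_of_classModule`, `GAD.H121.existenceSpec_of_classModule`.
-/
import Fermat.Agent.S55.G.CM.Assembly
import Fermat.Agent.S55.G.CM.H893.Closure
import Fermat.Agent.S55.G.CM.H514.SubCM
import Fermat.Agent.S55.G.CM.H954.Ord
import Fermat.Agent.S55.G.CM.H587.DescIncl
import Fermat.Agent.S55.G.CM.H139.SIndTop
import Fermat.Agent.S55.G.AllH604
import Fermat.Agent.S55.G.SIndH601.Closed

set_option autoImplicit false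

namespace Fermat.Agent.S55.G.CM

open Fermat.Agent.S55 Fermat.Agent.S55.G Fermat.Agent.S55.G.Rec

/-- **G-CM:TOP**, closed modulo `Gd1`. -/
theorem topOrder_of_gd1 (hGd1 : ∀ p : ℕ, TOW.Gd1Spec p) : TopOrderSpec :=
  topOrder_of hGd1 H893.closureLevel H514.subClassModuleSpec H954.quotOrder
    (H587.descIncl_of AllH604.descent) (H139.sindTop_of SIndH601.sIndep)

/-- **G-CM** (`G.PClassModuleSpec`, universal), closed modulo `Gd1`. -/
theorem pClassModule_of_gd1 (hGd1 : ∀ p : ℕ, TOW.Gd1Spec p) : PClassModuleSpec :=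
  pClassModule_of AllH604.pClassUpper (topOrder_of_gd1 hGd1)

end Fermat.Agent.S55.G.CM
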